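/-
S25 (Jacobian), package A6 "Small": isomorphism classes of invertible sheaves of modules on a
scheme `X : Scheme.{u}` form a `u`-small type; hence so do the classes of rigidified line bundles
of the relative Picard functor.  (helper3331)

Proof: an invertible `M` trivialised on opens `U x ∋ x` embeds into the fixed object
`∏ x, (j_x)_* 𝒪_{U x}`; presheaves of modules on a small site are well-powered, and the forgetful
functor to presheaves of modules is fully faithful and preserves monomorphisms.
-/
import Mathlib
import Fermat.Prelude.Def_AlgebraicGeometry_RelativePicardFunctor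

set_option autoImplicit false

universe u

open CategoryTheory CategoryTheory.Limits AlgebraicGeometry

namespace Fermat.Agent.S25.MACH.H3331

noncomputable section

variable (X : Scheme.{u})

/-- The fixed ambient object attached to a family of opens. -/
def ambient (U : X → X.Opens) : X.Modules :=
  ∏ᶜ fun x : X => (Scheme.Modules.pushforward (U x).ι).obj
    (SheafOfModules.unit (U x).toScheme.ringCatSheaf)

/-- Isomorphism of invertible sheaves of modules. -/
def invSetoid : Setoid {M : X.Modules // Scheme.Modules.IsInvertible M} where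
  r M M' := Nonempty (M.1 ≅ M'.1)
  iseqv := ⟨fun _ => ⟨Iso.refl _⟩, fun ⟨i⟩ => ⟨i.symm⟩, fun ⟨i⟩ ⟨j⟩ => ⟨i ≪≫ j⟩⟩

variable {X}

lemma mem_image_preimage (U V : X.Opens) (y : X) (hyU : y ∈ U) (hyV : y ∈ V) :
    y ∈ U.ι ''ᵁ (U.ι ⁻¹ᵁ V) := by
  rw [Scheme.Hom.image_preimage_eq_opensRange_inf, Scheme.Opens.opensRange_ι]
  exact ⟨hyU, hyV⟩

theorem exists_mono_ambient (M : X.Modules) (hM : Scheme.Modules.IsInvertible M) :
    ∃ (U : X → X.Opens) (m : M ⟶ ambient X U), Mono m := by
  classical
  choose U hxU e using hM.1
  let e' : ∀ x, (Scheme.Modules.restrictFunctor (U x).ι).obj M ≅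
      SheafOfModules.unit (U x).toScheme.ringCatSheaf := fun x =>
    (Scheme.Modules.restrictFunctorIsoPullback (U x).ι).app M ≪≫ (e x).some
  let comp : ∀ x, M ⟶ (Scheme.Modules.pushforward (U x).ι).obj
      (SheafOfModules.unit (U x).toScheme.ringCatSheaf) := fun x =>
    (Scheme.Modules.restrictAdjunction (U x).ι).unit.app M ≫
      (Scheme.Modules.pushforward (U x).ι).map (e' x).hom
  refine ⟨U, Pi.lift comp, ⟨fun {N} f g h => ?_⟩⟩
  have h' : ∀ x, f ≫ (Scheme.Modules.restrictAdjunction (U x).ι).unit.app M =
      g ≫ (Scheme.Modules.restrictAdjunction (U x).ι).unit.app M := by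
    intro x
    have h1 : (f ≫ Pi.lift comp) ≫ Pi.π _ x = (g ≫ Pi.lift comp) ≫ Pi.π _ x :=
      congrArg (fun k => k ≫ Pi.π _ x) h
    rw [Category.assoc, Category.assoc, Pi.lift_π] at h1
    have h2 : (f ≫ (Scheme.Modules.restrictAdjunction (U x).ι).unit.app M) ≫
        ((Scheme.Modules.pushforward (U x).ι).mapIso (e' x)).hom =
        (g ≫ (Scheme.Modules.restrictAdjunction (U x).ι).unit.app M) ≫
        ((Scheme.Modules.pushforward (U x).ι).mapIso (e' x)).hom := by
      rw [Category.assoc, Category.assoc]
      exact h1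
    exact (cancel_mono _).mp h2
  apply Scheme.Modules.hom_ext
  intro V
  ext n
  refine TopCat.Sheaf.eq_of_locally_eq' ⟨M.presheaf, M.isSheaf⟩
    (fun x : X => (U x).ι ''ᵁ ((U x).ι ⁻¹ᵁ V)) V
    (fun x => homOfLE ((U x).ι.image_preimage_le V)) ?_ _ _ ?_
  · intro y hy
    exact TopologicalSpace.Opens.mem_iSup.mpr ⟨y, mem_image_preimage (U y) V y (hxU y) hy⟩
  · intro x
    have h3 := congrArg (fun k => (Scheme.Modules.Hom.app k V) n) (h' x)
    simp only [Scheme.Modules.Hom.comp_app, Scheme.Modules.restrictAdjunction_unit_app_app] at h3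
    exact h3

variable (X)

/-- The `u`-small type into which isomorphism classes of invertible sheaves inject. -/
abbrev SmallTarget : Type (u + 1) :=
  Σ U : X → X.Opens, Subobject ((Scheme.Modules.toPresheafOfModules X).obj (ambient X U))

instance : Small.{u} (SmallTarget X) := by
  unfold SmallTarget
  infer_instance

variable {X}

lemma nonempty_iso_of_subobject_eq {M M' : X.Modules} (U U' : X → X.Opens)
    (m : M ⟶ ambient X U) (m' : M' ⟶ ambient X U')
    [Mono ((Scheme.Modules.toPresheafOfModules X).map m)]
    [Mono ((Scheme.Modules.toPresheafOfModules X).map m')]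
    (h : (⟨U, Subobject.mk ((Scheme.Modules.toPresheafOfModules X).map m)⟩ : SmallTarget X) =
      ⟨U', Subobject.mk ((Scheme.Modules.toPresheafOfModules X).map m')⟩) :
    Nonempty (M ≅ M') := by
  obtain ⟨rfl, h2⟩ := Sigma.mk.inj_iff.mp h
  rw [heq_iff_eq] at h2
  exact ⟨Scheme.Modules.fullyFaithfulToPresheafOfModules.preimageIso
    (Subobject.isoOfMkEqMk _ _ h2)⟩

variable (X)

/-- **A6.** Isomorphism classes of invertible sheaves of modules on a scheme form a small type. -/
theorem small_invClasses : Small.{u} (Quotient (invSetoid X)) := by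
  classical
  have key : ∀ M : {M : X.Modules // Scheme.Modules.IsInvertible M},
      ∃ (U : X → X.Opens) (m : M.1 ⟶ ambient X U),
        Mono ((Scheme.Modules.toPresheafOfModules X).map m) := by
    intro M
    obtain ⟨U, m, hm⟩ := exists_mono_ambient M.1 M.2
    exact ⟨U, m, inferInstance⟩
  choose U m hm using key
  let F : Quotient (invSetoid X) → SmallTarget X := fun q =>
    ⟨U q.out, @Subobject.mk _ _ _ _ ((Scheme.Modules.toPresheafOfModules X).map (m q.out))
      (hm q.out)⟩
  refine small_of_injective (f := F) ?_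
  intro q q' h
  have := hm q.out
  have := hm q'.out
  have hiso : Nonempty (q.out.1 ≅ q'.out.1) :=
    nonempty_iso_of_subobject_eq (U q.out) (U q'.out) (m q.out) (m q'.out) h
  rw [← Quotient.out_eq q, ← Quotient.out_eq q']
  exact Quotient.sound hiso

open AlgebraicGeometry.RelPicard NeronModelInfra in
/-- Classes of rigidified line bundles (the values of the relative Picard presheaf) are small. -/
theorem small_classes {R : Type u} [CommRing R] {C : Scheme.{u}}
    (c : C ⟶ Spec (CommRingCat.of R)) (ε : SchemeHomOver (𝟙 (Spec (CommRingCat.of R))) c)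
    {T : Scheme.{u}} (t : T ⟶ Spec (CommRingCat.of R)) :
    Small.{u} (RigidifiedLineBundle.Classes c ε t) := by
  have := small_invClasses (pullback c t)
  let G : RigidifiedLineBundle.Classes c ε t → Quotient (invSetoid (pullback c t)) :=
    Quotient.map (fun M => ⟨M.L, M.isInvertible⟩) (fun _ _ h => h)
  refine small_of_injective (f := G) ?_
  intro a b
  induction a using Quotient.ind with | _ M => ?_
  induction b using Quotient.ind with | _ M' => ?_
  intro h
  have h' : (Quotient.mk (invSetoid (pullback c t)) ⟨M.L, M.isInvertible⟩) =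
      Quotient.mk (invSetoid (pullback c t)) ⟨M'.L, M'.isInvertible⟩ := h
  have h'' : Nonempty (M.L ≅ M'.L) := Quotient.exact h'
  exact Quotient.sound h''

end

end Fermat.Agent.S25.MACH.H3331
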